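import Mathlib
import Fermat.Agent.LT.T6.H626.AbelCut
import Fermat.Agent.LT.T6.H626.FamAlg

/-!
# Row LT, tower T6, leaf T6.20a.4 `F1SmoothOfC626` (helper729), OFF-MAIN

`f1SmoothOf729 : H626.F1SmoothOfC626`, i.e.
`FamSmoothC626 → ParamIntC626 → ∀ c n, n = 1 ∨ n = -1 → ∀ φ, IsArchTestC φ →
  IsSmoothR626 (abelF1_626 c n φ)`
(frozen Props of `Fermat/Agent/LT/T6/H626/AbelCut.lean`, sha256 6a4d529b; algebra of the family
from `H626/FamAlg.lean`, sha256 9c407f7e; byte-identical copies).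

Reusable (also for `F0SmoothOfC626`): `det_sign729` (constant sign of a nonvanishing continuous
function on `ℝ^m`), `exists_bound729` (uniform support in `v`), `contDiff_integrand729`,
`contDiff_integral729` (the parametric integral `t ↦ ∫ φ(M_v(Y t)) dv` is smooth),
`contDiff_sqrt_det729`, `contDiff_rhoM729`.
-/

set_option autoImplicit false

open scoped Matrix ContDiff
open MeasureTheory

noncomputable section

namespace Fermat.Agent.LT.T6.H729

open Fermat.Agent.LT.T6 Fermat.Agent.LT.T6.H626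

/-! ## 1. `rhoC` is continuous -/

theorem det_ne_zero729 (y : GL (Fin 2) ℂ) : (y : Matrix (Fin 2) (Fin 2) ℂ).det ≠ 0 :=
  ((Matrix.isUnit_iff_isUnit_det _).1 y.isUnit).ne_zero

theorem continuous_rhoC729 : Continuous rhoC := by
  unfold rhoC
  have hval : Continuous fun y : GL (Fin 2) ℂ => (y : Matrix (Fin 2) (Fin 2) ℂ) :=
    Units.continuous_val
  have h1 : Continuous fun y : GL (Fin 2) ℂ =>
      (((y : Matrix (Fin 2) (Fin 2) ℂ).conjTranspose * (y : Matrix (Fin 2) (Fin 2) ℂ)).trace).re :=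
    Complex.continuous_re.comp ((hval.matrix_conjTranspose.matrix_mul hval).matrix_trace)
  have h2 : Continuous fun y : GL (Fin 2) ℂ => 2 * ‖(y : Matrix (Fin 2) (Fin 2) ℂ).det‖ :=
    continuous_const.mul hval.matrix_det.norm
  exact h1.div h2 fun y => mul_ne_zero two_ne_zero (norm_ne_zero_iff.2 (det_ne_zero729 y))

/-! ## 2. Constant sign -/

/-- A continuous nonvanishing real function on `ℝ^m` has a constant sign. -/
theorem det_sign729 {m : ℕ} (d : (Fin m → ℝ) → ℝ) (hc : Continuous d) (h0 : ∀ t, d t ≠ 0) :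
    (∀ t, 0 < d t) ∨ (∀ t, d t < 0) := by
  by_contra hcon
  rw [not_or] at hcon
  obtain ⟨h1, h2⟩ := hcon
  rw [not_forall] at h1 h2
  obtain ⟨t1, h1⟩ := h1
  obtain ⟨t2, h2⟩ := h2
  have hmem : (0 : ℝ) ∈ Set.range d :=
    mem_range_of_exists_le_of_exists_ge hc ⟨t1, not_lt.1 h1⟩ ⟨t2, not_lt.1 h2⟩
  obtain ⟨t, ht⟩ := hmem
  exact h0 t ht

/-! ## 3. The parametric integral -/

/-- Uniform support in `v` of `v ↦ φ(M_v(y))`. -/
theorem exists_bound729 {φ : GL (Fin 2) ℂ → ℂ} (hφ : IsArchTestC φ) :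
    ∃ V : ℝ, ∀ (y : Matrix (Fin 2) (Fin 2) ℝ), 0 < y.det → ∀ v : ℝ, V < |v| →
      φ (toGLC626 (famMat626 y v)) = 0 := by
  obtain ⟨R, hR⟩ := hφ.supp.isCompact.bddAbove_image continuous_rhoC729.continuousOn
  refine ⟨2 * (|R| + 1), fun y hy v hv => ?_⟩
  by_contra hne
  have hmem : toGLC626 (famMat626 y v) ∈ tsupport φ := subset_tsupport _ hne
  have hle : rhoC (toGLC626 (famMat626 y v)) ≤ R := hR ⟨_, hmem, rfl⟩
  rw [(famAlg626 y hy v).2.2.1] at hle
  have hρ := one_le_rhoM626 y hy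
  have hx2 := xv_sq626 (rhoM626 y) v hρ
  have hx1 := one_le_xv626 (rhoM626 y) v hρ
  have hRabs : xv626 (rhoM626 y) v ≤ |R| := hle.trans (le_abs_self R)
  have hv2 : v ^ 2 = |v| ^ 2 := (sq_abs v).symm
  have hR0 : 0 ≤ |R| := abs_nonneg R
  have hv0 : 0 ≤ |v| := abs_nonneg v
  have hxx : xv626 (rhoM626 y) v ^ 2 ≤ |R| ^ 2 := by nlinarith
  have hvv : (2 * (|R| + 1)) ^ 2 < |v| ^ 2 := by nlinarith
  nlinarith

/-- The integrand `(v, t) ↦ φ(M_v(Y t))` is smooth. -/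
theorem contDiff_integrand729 (hFam : FamSmoothC626) {φ : GL (Fin 2) ℂ → ℂ} (hφ : IsArchTestC φ)
    {m : ℕ} (Y : (Fin m → ℝ) → Matrix (Fin 2) (Fin 2) ℝ)
    (hY : ∀ i j : Fin 2, ContDiff ℝ ∞ fun t => Y t i j) (hpos : ∀ t, 0 < (Y t).det) :
    ContDiff ℝ ∞
      (fun p : Fin (m + 1) → ℝ => φ (toGLC626 (famMat626 (Y (Fin.tail p)) (p 0)))) := by
  have hent : ∀ i j : Fin 2, ContDiff ℝ ∞ (fun p : Fin (m + 1) → ℝ =>
      ((toGLC626 (famMat626 (Y (Fin.tail p)) (p 0)) : GL (Fin 2) ℂ) :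
        Matrix (Fin 2) (Fin 2) ℂ) i j) := by
    intro i j
    have e : (fun p : Fin (m + 1) → ℝ =>
        ((toGLC626 (famMat626 (Y (Fin.tail p)) (p 0)) : GL (Fin 2) ℂ) :
          Matrix (Fin 2) (Fin 2) ℂ) i j)
        = fun p : Fin (m + 1) → ℝ => famMat626 (Y (Fin.tail p)) (p 0) i j := by
      funext p
      rw [(famAlg626 _ (hpos _) _).2.1]
    rw [e]
    exact hFam m Y hY hpos i j
  have h1 := hφ.smooth (m + 1) (fun p => toGLC626 (famMat626 (Y (Fin.tail p)) (p 0))) hent 1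
  simpa only [one_mul] using h1

/-- The parametric integral `t ↦ ∫ φ(M_v(Y t)) dv` is smooth. -/
theorem contDiff_integral729 (hFam : FamSmoothC626) (hPar : ParamIntC626)
    {φ : GL (Fin 2) ℂ → ℂ} (hφ : IsArchTestC φ)
    {m : ℕ} (Y : (Fin m → ℝ) → Matrix (Fin 2) (Fin 2) ℝ)
    (hY : ∀ i j : Fin 2, ContDiff ℝ ∞ fun t => Y t i j) (hpos : ∀ t, 0 < (Y t).det) :
    ContDiff ℝ ∞ (fun t : Fin m → ℝ => ∫ v : ℝ, φ (toGLC626 (famMat626 (Y t) v))) := by
  obtain ⟨V, hV⟩ := exists_bound729 hφ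
  have h := hPar m (fun p => φ (toGLC626 (famMat626 (Y (Fin.tail p)) (p 0))))
    (contDiff_integrand729 hFam hφ Y hY hpos) ⟨V, fun p hp => hV _ (hpos _) _ hp⟩
  simpa only [Fin.tail_cons, Fin.cons_zero] using h

/-! ## 4. The prefactor -/

theorem contDiff_det729 {m : ℕ} (Y : (Fin m → ℝ) → Matrix (Fin 2) (Fin 2) ℝ)
    (hY : ∀ i j : Fin 2, ContDiff ℝ ∞ fun t => Y t i j) :
    ContDiff ℝ ∞ fun t => (Y t).det := by
  simp only [Matrix.det_fin_two]
  exact ((hY 0 0).mul (hY 1 1)).sub ((hY 0 1).mul (hY 1 0))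

theorem contDiff_sqrt_det729 {m : ℕ} (Y : (Fin m → ℝ) → Matrix (Fin 2) (Fin 2) ℝ)
    (hY : ∀ i j : Fin 2, ContDiff ℝ ∞ fun t => Y t i j) (hpos : ∀ t, 0 < (Y t).det) :
    ContDiff ℝ ∞ fun t => Real.sqrt (Y t).det :=
  (contDiff_det729 Y hY).sqrt fun t => (hpos t).ne'

theorem contDiff_rhoM729 {m : ℕ} (Y : (Fin m → ℝ) → Matrix (Fin 2) (Fin 2) ℝ)
    (hY : ∀ i j : Fin 2, ContDiff ℝ ∞ fun t => Y t i j) (hpos : ∀ t, 0 < (Y t).det) :
    ContDiff ℝ ∞ fun t => rhoM626 (Y t) := by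
  have e : (fun t => rhoM626 (Y t)) = fun t =>
      (2 * (Y t).det + ((Y t 0 0 - Y t 1 1) ^ 2 + (Y t 0 1 + Y t 1 0) ^ 2)) *
        (2 * (Y t).det)⁻¹ := by
    funext t
    unfold rhoM626
    rw [trace_transpose_mul626, abs_of_pos (hpos t), div_eq_mul_inv]
  rw [e]
  have hd := contDiff_det729 Y hY
  have hnum : ContDiff ℝ ∞ fun t =>
      2 * (Y t).det + ((Y t 0 0 - Y t 1 1) ^ 2 + (Y t 0 1 + Y t 1 0) ^ 2) :=
    (contDiff_const.mul hd).add ((((hY 0 0).sub (hY 1 1)).pow 2).add (((hY 0 1).add (hY 1 0)).pow 2))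
  have hden : ContDiff ℝ ∞ fun t => (2 * (Y t).det)⁻¹ :=
    (contDiff_const.mul hd).inv fun t => (mul_pos two_pos (hpos t)).ne'
  exact hnum.mul hden

theorem contDiff_holPart729 {m : ℕ} (H : (Fin m → ℝ) → GL (Fin 2) ℝ)
    (hH : ∀ i j : Fin 2, ContDiff ℝ ∞ fun t => ((H t : GL (Fin 2) ℝ) : Matrix (Fin 2) (Fin 2) ℝ) i j) :
    ContDiff ℝ ∞ fun t => holPart (H t) := by
  unfold holPart
  have hre : ContDiff ℝ ∞ fun t =>
      ((((H t : GL (Fin 2) ℝ) : Matrix (Fin 2) (Fin 2) ℝ) 0 0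
        + ((H t : GL (Fin 2) ℝ) : Matrix (Fin 2) (Fin 2) ℝ) 1 1 : ℝ) : ℂ) :=
    Complex.ofRealCLM.contDiff.comp ((hH 0 0).add (hH 1 1))
  have him : ContDiff ℝ ∞ fun t =>
      ((((H t : GL (Fin 2) ℝ) : Matrix (Fin 2) (Fin 2) ℝ) 1 0
        - ((H t : GL (Fin 2) ℝ) : Matrix (Fin 2) (Fin 2) ℝ) 0 1 : ℝ) : ℂ) :=
    Complex.ofRealCLM.contDiff.comp ((hH 1 0).sub (hH 0 1))
  exact (hre.add (him.mul contDiff_const)).div_const 2

theorem contDiff_jn729 (n : ℤ) {m : ℕ} (H : (Fin m → ℝ) → GL (Fin 2) ℝ)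
    (hH : ∀ i j : Fin 2, ContDiff ℝ ∞ fun t => ((H t : GL (Fin 2) ℝ) : Matrix (Fin 2) (Fin 2) ℝ) i j) :
    ContDiff ℝ ∞ fun t => jn626 n (H t) := by
  have hhol := contDiff_holPart729 H hH
  unfold jn626
  by_cases hn : n = 1
  · simp only [hn, if_true]
    have hc : ContDiff ℝ ∞ fun t => Complex.conjCLE (holPart (H t)) :=
      Complex.conjCLE.contDiff.comp hhol
    exact contDiff_const.mul hc
  · simp only [hn, if_false]
    exact contDiff_const.mul hhol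

/-! ## 5. The leaf -/

/-- **T6.20a.4 F1-SMOOTH.** -/
theorem f1SmoothOf729 : F1SmoothOfC626 := by
  intro hFam hPar c n _ φ hφ m h hh g
  -- the matrix family
  set Y : (Fin m → ℝ) → Matrix (Fin 2) (Fin 2) ℝ :=
    fun t => ((g * h t : GL (Fin 2) ℝ) : Matrix (Fin 2) (Fin 2) ℝ) with hYdef
  have hY : ∀ i j : Fin 2, ContDiff ℝ ∞ fun t => Y t i j := by
    intro i j
    have e : (fun t => Y t i j) = fun t =>
        (g : Matrix (Fin 2) (Fin 2) ℝ) i 0 * ((h t : GL (Fin 2) ℝ) : Matrix (Fin 2) (Fin 2) ℝ) 0 j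
          + (g : Matrix (Fin 2) (Fin 2) ℝ) i 1
            * ((h t : GL (Fin 2) ℝ) : Matrix (Fin 2) (Fin 2) ℝ) 1 j := by
      funext t
      simp only [hYdef, Matrix.GeneralLinearGroup.coe_mul, Matrix.mul_apply, Fin.sum_univ_two]
    rw [e]
    exact (contDiff_const.mul (hh 0 j)).add (contDiff_const.mul (hh 1 j))
  have hdet0 : ∀ t, (Y t).det ≠ 0 := fun t =>
    ((Matrix.isUnit_iff_isUnit_det _).1 (g * h t).isUnit).ne_zero
  have hdetc : Continuous fun t => (Y t).det := (contDiff_det729 Y hY).continuous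
  rcases det_sign729 (fun t => (Y t).det) hdetc hdet0 with hpos | hneg
  · -- positive determinant
    have e : (fun t => abelF1_626 c n φ (g * h t)) = fun t =>
        ((Real.sqrt 2 / 4 : ℝ) : ℂ) * c *
          (jn626 n (g * h t) *
            ((Real.sqrt (Y t).det * (rhoM626 (Y t) + 1) : ℝ) : ℂ)⁻¹) *
          ∫ v : ℝ, φ (toGLC626 (famMat626 (Y t) v)) := by
      funext t
      unfold abelF1_626
      rw [if_pos (hpos t), div_eq_mul_inv]
      rfl
    rw [e]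
    have hjn := contDiff_jn729 n (fun t => g * h t) hY
    have hden : ContDiff ℝ ∞ fun t =>
        ((Real.sqrt (Y t).det * (rhoM626 (Y t) + 1) : ℝ) : ℂ) :=
      Complex.ofRealCLM.contDiff.comp
        ((contDiff_sqrt_det729 Y hY hpos).mul ((contDiff_rhoM729 Y hY hpos).add contDiff_const))
    have hden0 : ∀ t, ((Real.sqrt (Y t).det * (rhoM626 (Y t) + 1) : ℝ) : ℂ) ≠ 0 := by
      intro t
      have h1 : 0 < Real.sqrt (Y t).det := Real.sqrt_pos.2 (hpos t)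
      have h2 : 1 ≤ rhoM626 (Y t) := one_le_rhoM626 (Y t) (hpos t)
      exact Complex.ofReal_ne_zero.2 (mul_pos h1 (by linarith)).ne'
    exact (contDiff_const.mul (hjn.mul (hden.inv hden0))).mul
      (contDiff_integral729 hFam hPar hφ Y hY hpos)
  · -- negative determinant: the function vanishes
    have e : (fun t => abelF1_626 c n φ (g * h t)) = fun _ => 0 := by
      funext t
      unfold abelF1_626
      rw [if_neg (not_lt.2 (hneg t).le)]
    rw [e]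
    exact contDiff_const

end Fermat.Agent.LT.T6.H729

end
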